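import Fermat.Agent.BrauerFeit.Main
import Fermat.Agent.SecondMainTheorem.Correspondence
import Mathlib.LinearAlgebra.Matrix.PosDef
import Mathlib.LinearAlgebra.FreeModule.PID
import Mathlib.LinearAlgebra.Dimension.Free

/-!
# The lattice of characters on the regular elements and the Cartan matrix of a block

In a basis of the lattice spanned by the characters of a block cut off at the regular elements the
contribution matrix is `D C⁻¹ Dᵀ`.  Everything follows from the integral identities `E D = 1`,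
`M D = pᵈ D` and `M = D E M`.
-/

set_option autoImplicit false
set_option linter.style.haveILetI false

noncomputable section

open Finset FA.CharacterTheory FA.FrobeniusGroups FA.Thompson FA.PrincipalBlock
open FA.BrauerFeit (contr contr_eq contr_comm ordDefect exists_matrix cut_eq_sum)
open scoped Classical

namespace FA.BlockCartan

variable {G : Type*} [Group G] [Fintype G] {p : ℕ} [hp : Fact p.Prime] {v : Place p}

/-- A function cut off at the regular elements. -/
def cutReg (p : ℕ) (χ : G → ℂ) : G → ℂ := fun g => indR p g * χ g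

/-- The lattice of the characters of `S` on the regular elements. -/
def latt (p : ℕ) (S : Finset (G → ℂ)) : Submodule ℤ (G → ℂ) :=
  Submodule.span ℤ (cutReg p '' S)

/-- The number `l(B)`. -/
def lB (p : ℕ) (S : Finset (G → ℂ)) : ℕ := Module.finrank ℤ (latt p S)

instance latt_finite (S : Finset (G → ℂ)) : Module.Finite ℤ (latt p S) :=
  Module.Finite.span_of_finite ℤ (S.finite_toSet.image _)

instance latt_free (S : Finset (G → ℂ)) : Module.Free ℤ (latt p S) :=
  Module.free_of_finite_type_torsion_free'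

omit hp [Fintype G] in
theorem cutReg_mem {S : Finset (G → ℂ)} {χ : G → ℂ} (hχ : χ ∈ S) : cutReg p χ ∈ latt p S :=
  Submodule.subset_span ⟨χ, hχ, rfl⟩

omit hp in
theorem pairing_cutReg (χ ψ : G → ℂ) : pairing (cutReg p χ) ψ = contr p χ ψ := rfl

/-- The decomposition matrix in a basis of the lattice. -/
def decomp {S : Finset (G → ℂ)} {ι : Type*} (b : Module.Basis ι ℤ (latt p S)) :
    Matrix S ι ℤ :=
  Matrix.of fun χ i => b.repr ⟨cutReg p χ, cutReg_mem χ.2⟩ i

/-- The Cartan matrix in a basis of the lattice. -/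
def cartan {S : Finset (G → ℂ)} {ι : Type*} (b : Module.Basis ι ℤ (latt p S)) : Matrix ι ι ℤ :=
  (decomp b).transpose * decomp b

omit hp [Fintype G] in
theorem exists_coeff {S : Finset (G → ℂ)} (x : latt p S) :
    ∃ e : S → ℤ, (x : G → ℂ) = ∑ χ : S, e χ • cutReg p χ := by
  have hmem : (x : G → ℂ) ∈
      Submodule.span ℤ (Set.range fun χ : S => cutReg p (χ : G → ℂ)) := by
    rw [show (Set.range fun χ : S => cutReg p (χ : G → ℂ)) = cutReg p '' S by ext; simp]
    exact x.2
  rw [Submodule.mem_span_range_iff_exists_fun] at hmem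
  obtain ⟨e, he⟩ := hmem
  exact ⟨e, he.symm⟩

omit hp in
theorem pairing_sum_smul {ι : Type*} [Fintype ι] (c : ι → ℤ) (f : ι → G → ℂ) (ψ : G → ℂ) :
    pairing (∑ i, c i • f i) ψ = ∑ i, (c i : ℂ) * pairing (f i) ψ := by
  rw [← pairing_sum_left univ (fun i => (c i : ℂ)) f ψ]
  congr 1
  funext x
  simp [Finset.sum_apply]

/-- The integral identities behind the Cartan matrix. -/
theorem exists_data {S : Finset (G → ℂ)} (hS : Good v S) {ι : Type*} [Fintype ι]
    (b : Module.Basis ι ℤ (latt p S)) :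
    ∃ (E : Matrix ι S ℤ) (M : Matrix S S ℤ),
      E * decomp b = 1 ∧ M * decomp b = (p : ℤ) ^ ordDefect p S • decomp b ∧
      decomp b * (E * M) = M ∧ M.transpose = M ∧
      (∀ χ ψ : S, (p : ℂ) ^ ordDefect p S * contr p (χ : G → ℂ) ψ = M χ ψ) ∧
      ∀ i (ψ : S),
        (p : ℂ) ^ ordDefect p S * pairing (b i : G → ℂ) ψ = ((E * M) i ψ : ℤ) := by
  obtain ⟨M₀, hM₀, -, hsym⟩ := exists_matrix hS
  choose E₀ hE using fun i => exists_coeff (b i)
  set E : Matrix ι S ℤ := Matrix.of E₀ with hEdef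
  set M : Matrix S S ℤ := Matrix.of fun χ ψ : S => M₀ (χ : G → ℂ) ψ with hMdef
  set D := decomp b with hDdef
  have hD : ∀ χ : S, cutReg p (χ : G → ℂ) = ∑ i, D χ i • (b i : G → ℂ) := fun χ => by
    have h := congrArg Subtype.val (b.sum_repr ⟨cutReg p χ, cutReg_mem χ.2⟩)
    rw [Submodule.coe_sum] at h
    exact h.symm
  have huniq : ∀ c c' : ι → ℤ, ∑ i, c i • (b i : G → ℂ) = ∑ i, c' i • (b i : G → ℂ) → c = c' := by
    intro c c' h
    have h' : ∑ i, c i • b i = ∑ i, c' i • b i := Subtype.ext (by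
      rw [Submodule.coe_sum, Submodule.coe_sum]; exact h)
    funext i
    rw [← b.repr_sum_self c, ← b.repr_sum_self c', h']
  have hexp : ∀ c : S → ℤ, ∑ χ : S, c χ • cutReg p (χ : G → ℂ) =
      ∑ i, (∑ χ : S, c χ * D χ i) • (b i : G → ℂ) := fun c => by
    simp only [hD, smul_sum, sum_smul, mul_smul]
    rw [sum_comm]
  have hq : ∀ χ ψ : S, (p : ℂ) ^ ordDefect p S * contr p (χ : G → ℂ) ψ = M χ ψ :=
    fun χ ψ => hM₀ χ χ.2 ψ ψ.2
  have hEM : ∀ i (ψ : S), (p : ℂ) ^ ordDefect p S * pairing (b i : G → ℂ) ψ =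
      ((E * M) i ψ : ℤ) := fun i ψ => by
    rw [hE i, pairing_sum_smul, mul_sum, Matrix.mul_apply, Int.cast_sum]
    refine sum_congr rfl fun χ _ => ?_
    rw [Int.cast_mul, ← hq χ ψ, pairing_cutReg]
    simp only [hEdef, Matrix.of_apply]
    ring
  refine ⟨E, M, ?_, ?_, ?_, Matrix.ext fun χ ψ => hsym ψ ψ.2 χ χ.2, hq, hEM⟩
  · refine Matrix.ext fun i j => ?_
    have h := huniq (fun k => ∑ χ : S, E i χ * D χ k) (Pi.single i 1) (by
      rw [← hexp, show ∑ χ : S, E i χ • cutReg p (χ : G → ℂ) = (b i : G → ℂ) from (hE i).symm,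
        sum_eq_single i (fun k _ hk => by simp [hk]) (by simp)]
      simp)
    rw [Matrix.mul_apply, congrFun h j, Matrix.one_apply, Pi.single_apply]
    simp only [eq_comm]
  · refine Matrix.ext fun χ j => ?_
    have h := huniq (fun k => ∑ ψ : S, M χ ψ * D ψ k)
      (fun k => (p : ℤ) ^ ordDefect p S * D χ k) (by
      rw [← hexp]
      have h1 : ∀ g, cutReg p (χ : G → ℂ) g =
          ∑ ψ : S, contr p (χ : G → ℂ) ψ * cutReg p (ψ : G → ℂ) g := fun g => by
        have h2 : indR p g * indR p g = indR p g := by unfold indR; split_ifs <;> simp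
        rw [sum_coe_sort S fun ψ => contr p (χ : G → ℂ) ψ * cutReg p ψ g]
        simp only [cutReg, mul_left_comm _ (indR p g), ← mul_sum]
        rw [← cut_eq_sum hS χ.2 g, ← mul_assoc, h2]
      funext g
      rw [show ∑ k, ((p : ℤ) ^ ordDefect p S * D χ k) • (b k : G → ℂ) =
          (p : ℤ) ^ ordDefect p S • cutReg p (χ : G → ℂ) by
        rw [hD χ, smul_sum]
        exact sum_congr rfl fun k _ => mul_smul _ _ _]
      simp only [Finset.sum_apply, Pi.smul_apply]
      simp only [zsmul_eq_mul, Int.cast_pow, Int.cast_natCast, h1 g, mul_sum]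
      exact sum_congr rfl fun ψ _ => by rw [← hq χ ψ]; ring)
    rw [Matrix.mul_apply, congrFun h j, Matrix.smul_apply, smul_eq_mul]
  · refine Matrix.ext fun χ ψ => ?_
    apply Int.cast_injective (α := ℂ)
    rw [← hq χ ψ, ← pairing_cutReg, hD χ, pairing_sum_smul, mul_sum, Matrix.mul_apply,
      Int.cast_sum]
    refine sum_congr rfl fun i _ => ?_
    rw [Int.cast_mul, ← hEM i ψ]
    ring

/-- **The Cartan matrix**: `pᵈ C⁻¹` is integral and gives the contributions; the basis is
independent over `ℂ`. -/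
theorem cartan_spec {S : Finset (G → ℂ)} (hS : Good v S) {ι : Type*} [Fintype ι]
    (b : Module.Basis ι ℤ (latt p S)) :
    LinearIndependent ℂ (fun i => (b i : G → ℂ)) ∧
      ∃ Γ : Matrix ι ι ℤ, Γ * cartan b = (p : ℤ) ^ ordDefect p S • 1 ∧
        ∀ χ ψ : S, (p : ℂ) ^ ordDefect p S * contr p (χ : G → ℂ) ψ =
          ((decomp b * Γ * (decomp b).transpose) χ ψ : ℤ) := by
  obtain ⟨E, M, hED, hMD, hDEM, hMT, hq, hEM⟩ := exists_data hS b
  refine ⟨?_, E * M * E.transpose, ?_, fun χ ψ => ?_⟩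
  · rw [Fintype.linearIndependent_iff]
    intro c hc j
    have hr : ∀ ψ : S, ∑ i, c i * (((E * M) i ψ : ℤ) : ℂ) = 0 := fun ψ => by
      have h := congrArg (fun f => (p : ℂ) ^ ordDefect p S * pairing f (ψ : G → ℂ)) hc
      rw [show (∑ i, c i • (b i : G → ℂ)) = fun x => ∑ i, c i * (b i : G → ℂ) x from
        funext fun x => by simp [Finset.sum_apply], pairing_sum_left, mul_sum] at h
      simp only [show pairing (0 : G → ℂ) (ψ : G → ℂ) = 0 by simp [pairing], mul_zero] at h
      rw [← h]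
      exact sum_congr rfl fun i _ => by rw [← hEM i ψ]; ring
    have hk : E * M * decomp b = (p : ℤ) ^ ordDefect p S • (1 : Matrix ι ι ℤ) := by
      rw [Matrix.mul_assoc, hMD, Matrix.mul_smul, hED]
    have h0 : ∑ i, c i * (((E * M * decomp b) i j : ℤ) : ℂ) = 0 := by
      simp only [Matrix.mul_apply (M := E * M), Int.cast_sum, Int.cast_mul, mul_sum, ← mul_assoc]
      rw [sum_comm]
      exact sum_eq_zero fun ψ _ => by rw [← sum_mul, hr, zero_mul]
    rw [hk] at h0
    simp only [Matrix.smul_apply, Matrix.one_apply, smul_eq_mul, mul_ite, mul_one, mul_zero,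
      apply_ite (Int.cast : ℤ → ℂ), Int.cast_zero, sum_ite_eq', mem_univ, if_true] at h0
    exact (mul_eq_zero.1 h0).resolve_right (Int.cast_ne_zero.2
      (pow_ne_zero _ (Int.natCast_ne_zero.2 hp.out.ne_zero)))
  · have h1 : E.transpose * (decomp b).transpose * decomp b = E.transpose * cartan b := by
      rw [Matrix.mul_assoc]
      rfl
    have h2 : M * E.transpose * (decomp b).transpose = M := by
      have h := congrArg Matrix.transpose hDEM
      simpa only [Matrix.transpose_mul, hMT] using h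
    calc E * M * E.transpose * cartan b
        = E * (M * E.transpose * (decomp b).transpose) * decomp b := by
          simp only [cartan, Matrix.mul_assoc]
      _ = _ := by rw [h2, Matrix.mul_assoc, hMD, Matrix.mul_smul, hED]
  · rw [hq χ ψ]
    have h2 : M * E.transpose * (decomp b).transpose = M := by
      have h := congrArg Matrix.transpose hDEM
      simpa only [Matrix.transpose_mul, hMT] using h
    congr 1
    calc M χ ψ = (decomp b * (E * M) * E.transpose * (decomp b).transpose) χ ψ := by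
          rw [hDEM, h2]
      _ = _ := by simp only [Matrix.mul_assoc]

/-- The Cartan matrix is positive definite and its determinant is a power of `p`. -/
theorem cartan_posDef {S : Finset (G → ℂ)} (hS : Good v S) {ι : Type*} [Fintype ι]
    (b : Module.Basis ι ℤ (latt p S)) :
    ((cartan b).map (Int.cast : ℤ → ℝ)).PosDef ∧
      ∃ j ≤ ordDefect p S * Fintype.card ι, (cartan b).det = (p : ℤ) ^ j := by
  obtain ⟨E, M, hED, -⟩ := exists_data hS b
  obtain ⟨-, Γ, hΓ, -⟩ := cartan_spec hS b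
  set D' := (decomp b).map (Int.castRingHom ℝ) with hD'
  have hED' : E.map (Int.castRingHom ℝ) * D' = 1 := by
    rw [hD', ← Matrix.map_mul, hED, Matrix.map_one _ (map_zero _) (map_one _)]
  have hinj : Function.Injective D'.mulVec := fun x y h => by
    have := congrArg (E.map (Int.castRingHom ℝ)).mulVec h
    simpa only [Matrix.mulVec_mulVec, hED', Matrix.one_mulVec] using this
  have hP : ((cartan b).map (Int.cast : ℤ → ℝ)).PosDef := by
    rw [show (cartan b).map (Int.cast : ℤ → ℝ) = D'.conjTranspose * D' by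
      rw [hD', cartan, Matrix.conjTranspose_eq_transpose_of_trivial, ← Matrix.transpose_map,
        ← Matrix.map_mul]
      rfl]
    exact Matrix.PosDef.conjTranspose_mul_self _ hinj
  refine ⟨hP, ?_⟩
  have hdet := congrArg Matrix.det hΓ
  rw [Matrix.det_mul, Matrix.det_smul, Matrix.det_one, mul_one, ← pow_mul] at hdet
  have hpos : 0 < (cartan b).det := by
    have h := hP.det_pos
    rw [show ((cartan b).map (Int.cast : ℤ → ℝ)).det = (((cartan b).det : ℤ) : ℝ) from
      ((Int.castRingHom ℝ).map_det (cartan b)).symm] at h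
    exact_mod_cast h
  have hdvd : (cartan b).det.natAbs ∣ p ^ (ordDefect p S * Fintype.card ι) := by
    have := Int.natAbs_dvd_natAbs.2 (Dvd.intro_left _ hdet)
    simpa [Int.natAbs_pow] using this
  obtain ⟨j, hj, he⟩ := (Nat.dvd_prime_pow hp.out).1 hdvd
  refine ⟨j, hj, ?_⟩
  rw [← Int.natAbs_of_nonneg hpos.le, he]
  push_cast
  rfl

/-- The size of a basis is the trace of the contributions. -/
theorem card_basis_eq {S : Finset (G → ℂ)} (hS : Good v S) {ι : Type*} [Fintype ι]
    (b : Module.Basis ι ℤ (latt p S)) : (Fintype.card ι : ℂ) = ∑ χ ∈ S, contr p χ χ := by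
  obtain ⟨-, Γ, hΓ, hc⟩ := cartan_spec hS b
  have h1 : (p : ℤ) ^ ordDefect p S * (Fintype.card ι : ℤ) =
      (decomp b * Γ * (decomp b).transpose).trace := by
    rw [Matrix.trace_mul_comm, ← Matrix.mul_assoc,
      show (decomp b).transpose * decomp b = cartan b from rfl, Matrix.trace_mul_comm, hΓ,
      Matrix.trace_smul, Matrix.trace_one, smul_eq_mul]
  have hq : (p : ℂ) ^ ordDefect p S ≠ 0 := pow_ne_zero _ (Nat.cast_ne_zero.2 hp.out.ne_zero)
  refine mul_left_cancel₀ hq ?_
  have h2 := congrArg (Int.cast : ℤ → ℂ) h1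
  rw [Int.cast_mul, Int.cast_pow, Int.cast_natCast, Int.cast_natCast] at h2
  rw [h2, Matrix.trace, Int.cast_sum, mul_sum, ← sum_coe_sort S]
  exact sum_congr rfl fun χ _ => by rw [Matrix.diag_apply, ← hc χ χ]

/-- **The rank is the trace of the contributions.** -/
theorem lB_eq {S : Finset (G → ℂ)} (hS : Good v S) : (lB p S : ℂ) = ∑ χ ∈ S, contr p χ χ := by
  rw [← card_basis_eq hS (Module.finBasis ℤ (latt p S)), Fintype.card_fin]
  rfl

/-- A contribution with exact denominator `pᵈ`. -/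
theorem exists_exact {χ₀ : G → ℂ} (hχ₀ : χ₀ ∈ irr G) :
    ∃ χ ∈ blk v χ₀, ∃ φ ∈ blk v χ₀, ∃ n : ℤ, ¬ (p : ℤ) ∣ n ∧
      (p : ℂ) ^ ordDefect p (blk v χ₀) * contr p χ φ = n := by
  have hS := good_blk v χ₀
  obtain ⟨c, hc, he⟩ := BrauerFeit.exists_aS_expansion hS
  have hrp : ∀ φ ∈ blk v χ₀, IsCen v (BrauerFeit.rpart p φ) := fun φ hφ =>
    BrauerFeit.isCen_rpart (hS.sub hφ)
  obtain ⟨φ, hφ, hne⟩ : ∃ φ ∈ blk v χ₀, v.r (omega χ₀ (BrauerFeit.rpart p φ)) ≠ 0 := by
    by_contra! hall
    have h := omega_aS hS.sub hχ₀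
    rw [if_pos (BrauerFeit.mem_blk_self hχ₀), he,
      show omega χ₀ (∑ φ ∈ blk v χ₀, c φ • BrauerFeit.rpart p φ) =
        ∑ φ ∈ blk v χ₀, c φ * omega χ₀ (BrauerFeit.rpart p φ) by
        simp only [omega, Finset.sum_apply, Pi.smul_apply, smul_eq_mul, sum_mul, mul_sum]
        rw [sum_comm]
        exact sum_congr rfl fun φ _ => sum_congr rfl fun g _ => by ring] at h
    have h2 := congrArg v.r h
    rw [v.r_one, v.r_sum _ fun φ hφ => mul_mem (hc φ hφ) ((hrp φ hφ).omega_mem hχ₀),
      sum_eq_zero fun φ hφ => by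
        rw [v.r_mul (hc φ hφ) ((hrp φ hφ).omega_mem hχ₀), hall φ hφ, mul_zero]] at h2
    exact zero_ne_one h2
  obtain ⟨χ, hχ, hex⟩ := (BrauerFeit.degree_dvd (v := v) (p := p) hχ₀).2
  obtain ⟨n, hn⟩ := BrauerFeit.exists_int_contr_block hS hχ (hS.sub hφ)
  refine ⟨χ, hχ, φ, hφ, n, fun hd => hne ?_, hn⟩
  rw [(mem_filter.1 hχ).2 _ (hrp φ hφ), BrauerFeit.omega_rpart,
    (BrauerFeit.deg_spec (hS.sub hχ)).1]
  obtain ⟨l, hl, hG⟩ := BrauerFeit.split_natCast (p := p) (Nat.card_pos (α := G)).ne'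
  obtain ⟨m, hm, hdeg⟩ :=
    BrauerFeit.split_natCast (p := p) (BrauerFeit.deg_spec (hS.sub hχ)).2
  have hle : ordDefect p (blk v χ₀) ≤ (Nat.card G).factorization p :=
    Finset.sup_le fun ψ _ => Nat.sub_le _ _
  have hsum : (Nat.card G).factorization p =
      ordDefect p (blk v χ₀) + (BrauerFeit.deg χ).factorization p := by omega
  rw [hsum, pow_add] at hG
  generalize (BrauerFeit.deg χ).factorization p = e at hG hdeg
  have hq : (l : ℂ) * (m : ℂ)⁻¹ ∈ v.O := mul_mem (natCast_mem _ _) (v.inv_natCast_mem hm)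
  have hp0 : (p : ℂ) ≠ 0 := Nat.cast_ne_zero.2 hp.out.ne_zero
  rw [show (Nat.card G : ℂ) / (BrauerFeit.deg χ : ℂ) * contr p χ φ =
    (l : ℂ) * (m : ℂ)⁻¹ * (n : ℂ) by
      have hm0 : (m : ℂ) ≠ 0 := Nat.cast_ne_zero.2 fun h0 => hm (h0 ▸ dvd_zero p)
      rw [hG, hdeg, ← hn]
      push_cast
      field_simp, v.r_mul hq (intCast_mem _ _), v.int_eq_zero_iff.2 hd, mul_zero]

/-- **One modular character**: the Cartan invariant is `pᵈ`. -/
theorem cartan_of_one {χ₀ : G → ℂ} (hχ₀ : χ₀ ∈ irr G) {ι : Type*} [Fintype ι]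
    (b : Module.Basis ι ℤ (latt p (blk v χ₀))) (h1 : Fintype.card ι = 1) (i : ι) :
    cartan b i i = (p : ℤ) ^ ordDefect p (blk v χ₀) := by
  obtain ⟨-, Γ, hΓ, hc⟩ := cartan_spec (good_blk v χ₀) b
  obtain ⟨-, j, hj, hdet⟩ := cartan_posDef (good_blk v χ₀) b
  have hu : ∀ k : ι, k = i := fun k => (Fintype.card_le_one_iff.1 h1.le) k i
  have huniv : (univ : Finset ι) = {i} :=
    eq_singleton_iff_unique_mem.2 ⟨mem_univ i, fun k _ => hu k⟩
  rw [Matrix.det_eq_elem_of_card_eq_one h1 i] at hdet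
  rw [h1, mul_one] at hj
  obtain ⟨χ, hχ, φ, hφ, n, hn, he⟩ := exists_exact (v := v) hχ₀
  have hM : n = decomp b ⟨χ, hχ⟩ i * Γ i i * decomp b ⟨φ, hφ⟩ i := by
    apply Int.cast_injective (α := ℂ)
    rw [← he, hc ⟨χ, hχ⟩ ⟨φ, hφ⟩]
    congr 1
    simp [Matrix.mul_apply, huniv]
  have h2 : Γ i i * cartan b i i = (p : ℤ) ^ ordDefect p (blk v χ₀) := by
    have := congrFun (congrFun hΓ i) i
    simpa [Matrix.mul_apply, huniv] using this
  rw [hdet] at h2 ⊢
  obtain ⟨k, hk⟩ := Nat.le.dest hj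
  rcases Nat.eq_zero_or_pos k with rfl | hk0
  · rw [← hk, add_zero]
  · exfalso
    rw [← hk, pow_add, mul_comm ((p : ℤ) ^ j)] at h2
    have h3 : Γ i i = (p : ℤ) ^ k :=
      mul_right_cancel₀ (pow_ne_zero _ (Int.natCast_ne_zero.2 hp.out.ne_zero)) h2
    exact hn (hM ▸ Dvd.dvd.mul_right (Dvd.dvd.mul_left (h3 ▸ dvd_pow_self _ hk0.ne') _) _)

end FA.BlockCartan

end
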