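import Fermat.Agent.BlockCartan.Cartan

/-!
# The lattice of all characters on the regular elements
-/

set_option autoImplicit false
set_option linter.style.haveILetI false

noncomputable section

open Finset FA.CharacterTheory FA.FrobeniusGroups FA.Thompson FA.PrincipalBlock
open FA.BrauerFeit (contr contr_eq contr_comm ordDefect cut_eq_sum mem_blk_self classOf)
open scoped Classical

namespace FA.BlockCartan

variable {G : Type*} [Group G] [Fintype G] {p : ℕ} [hp : Fact p.Prime] {v : Place p}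

omit hp in
theorem good_irr : Good v (irr G) :=
  ⟨subset_rfl, by rw [SecondMainTheorem.aS_irr]; exact IsCen.dlt⟩

omit hp in
theorem blocks_union : ((irr G).image (blk v)).biUnion id = irr G := by
  refine subset_antisymm (biUnion_subset.2 fun S hS => ?_) fun χ hχ =>
    mem_biUnion.2 ⟨_, mem_image_of_mem _ hχ, mem_blk_self hχ⟩
  obtain ⟨x, -, rfl⟩ := mem_image.1 hS
  exact blk_subset v x

/-- The classes of regular elements. -/
def regClasses (p : ℕ) (G : Type*) [Group G] [Fintype G] : Finset (ConjClasses G) :=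
  ((univ : Finset G).filter (Reg p)).image ConjClasses.mk

omit hp in
theorem card_regClasses : (regClasses p G).card =
    Nat.card {c : ConjClasses G // ∃ g, ¬ p ∣ orderOf g ∧ ConjClasses.mk g = c} := by
  rw [← Nat.card_eq_finsetCard]
  exact Nat.card_congr (Equiv.subtypeEquivRight fun c => by simp [regClasses, Reg])

omit hp in
/-- Summing the orders of the centralisers counts classes. -/
theorem sum_centralizer :
    ∑ s ∈ univ.filter (fun g : G => Reg p g),
        (Nat.card (Subgroup.centralizer ({s} : Set G)) : ℂ) =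
      (regClasses p G).card * Nat.card G := by
  rw [← sum_fiberwise_of_maps_to (g := ConjClasses.mk) (t := regClasses p G)
    (fun s hs => mem_image_of_mem _ hs), ← nsmul_eq_mul, ← sum_const]
  refine sum_congr rfl fun C hC => ?_
  obtain ⟨g, hg, rfl⟩ := mem_image.1 hC
  have hfil : (univ.filter (fun g : G => Reg p g)).filter
      (fun x => ConjClasses.mk x = ConjClasses.mk g) = classOf g := by
    rw [filter_filter]
    refine filter_congr fun x _ => ?_
    rw [ConjClasses.mk_eq_mk_iff_isConj, isConj_comm]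
    refine ⟨fun h => h.2, fun h => ⟨?_, h⟩⟩
    obtain ⟨c, rfl⟩ := isConj_iff.1 h
    exact reg_conj_iff.2 (mem_filter.1 hg).2
  have hcard : ∀ x ∈ classOf g, Nat.card (Subgroup.centralizer ({x} : Set G)) =
      Nat.card (Subgroup.centralizer ({g} : Set G)) := fun x hx => by
    have hcl : classOf x = classOf g := filter_congr fun y _ =>
      ⟨fun h => (mem_filter.1 hx).2.trans h, fun h => (mem_filter.1 hx).2.symm.trans h⟩
    have h1 := BrauerFeit.card_classOf x
    rw [hcl, ← BrauerFeit.card_classOf g] at h1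
    exact Nat.eq_of_mul_eq_mul_left (card_pos.2 ⟨g, mem_filter.2 ⟨mem_univ g, IsConj.refl g⟩⟩) h1
  rw [hfil, sum_congr rfl fun x hx => by rw [hcard x hx], sum_const, nsmul_eq_mul,
    ← BrauerFeit.card_classOf g, Nat.cast_mul]

/-- **The rank of the lattice of all characters** is the number of regular classes. -/
theorem lB_irr (v : Place p) : lB p (irr G) = (regClasses p G).card := by
  have h : (lB p (irr G) : ℂ) = (regClasses p G).card := by
    rw [lB_eq (good_irr (v := v))]
    simp only [contr_eq]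
    rw [← mul_sum, sum_comm, sum_congr rfl fun s _ => by
      rw [column_orthogonality, if_pos (IsConj.refl s)], sum_centralizer,
      mul_comm _ (Nat.card G : ℂ), inv_mul_cancel_left₀ (Nat.cast_ne_zero.2 Nat.card_pos.ne')]
  exact_mod_cast h

/-- The ranks of the blocks add up. -/
theorem sum_lB (v : Place p) :
    ∑ S ∈ (irr G).image (blk v), lB p S = (regClasses p G).card := by
  rw [← lB_irr v]
  have h : ((∑ S ∈ (irr G).image (blk v), lB p S : ℕ) : ℂ) = lB p (irr G) := by
    rw [lB_eq (good_irr (v := v)), Nat.cast_sum]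
    conv_rhs => rw [← blocks_union (v := v)]
    rw [sum_biUnion (SecondMainTheorem.pairwiseDisjoint_blk _)]
    refine sum_congr rfl fun S hS => ?_
    obtain ⟨x, -, rfl⟩ := mem_image.1 hS
    exact lB_eq (good_blk v x)
  exact_mod_cast h

omit hp in
theorem isCls_of_mem {S : Finset (G → ℂ)} (hS : S ⊆ irr G) {x : G → ℂ} (hx : x ∈ latt p S) :
    IsCls x ∧ ∀ g, ¬ Reg p g → x g = 0 := by
  induction hx using Submodule.span_induction with
  | mem y hy =>
    obtain ⟨χ, hχ, rfl⟩ := hy
    refine ⟨fun g z => ?_, fun g hg => ?_⟩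
    · simp only [cutReg, indR, reg_conj_iff, irr_conj (hS hχ)]
    · rw [cutReg, indR, if_neg hg, zero_mul]
  | zero => exact ⟨fun _ _ => rfl, fun _ _ => rfl⟩
  | add a b _ _ ha hb =>
    exact ⟨fun g z => by simp only [Pi.add_apply, ha.1 g z, hb.1 g z],
      fun g hg => by rw [Pi.add_apply, ha.2 g hg, hb.2 g hg, add_zero]⟩
  | smul c a _ ha =>
    exact ⟨fun g z => by simp only [Pi.smul_apply, ha.1 g z],
      fun g hg => by rw [Pi.smul_apply, ha.2 g hg, smul_zero]⟩

omit hp in
/-- A basis spans all class functions on the regular elements. -/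
theorem mem_span_iff {ι : Type*} [Fintype ι] (b : Module.Basis ι ℤ (latt p (irr G)))
    (f : G → ℂ) : f ∈ Submodule.span ℂ (Set.range fun i => (b i : G → ℂ)) ↔
      IsCls f ∧ ∀ g, ¬ Reg p g → f g = 0 := by
  constructor
  · intro h
    induction h using Submodule.span_induction with
    | mem y hy =>
      obtain ⟨i, rfl⟩ := hy
      exact isCls_of_mem subset_rfl (b i).2
    | zero => exact ⟨fun _ _ => rfl, fun _ _ => rfl⟩
    | add a c _ _ ha hb =>
      exact ⟨fun g z => by simp only [Pi.add_apply, ha.1 g z, hb.1 g z],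
        fun g hg => by rw [Pi.add_apply, ha.2 g hg, hb.2 g hg, add_zero]⟩
    | smul c a _ ha =>
      exact ⟨fun g z => by simp only [Pi.smul_apply, ha.1 g z],
        fun g hg => by rw [Pi.smul_apply, ha.2 g hg, smul_zero]⟩
  · rintro ⟨hf, h0⟩
    have he : f = ∑ χ ∈ irr G, pairing f χ • cutReg p χ := funext fun g => by
      simp only [Finset.sum_apply, Pi.smul_apply, smul_eq_mul, cutReg,
        mul_left_comm _ (indR p g), ← mul_sum, ← expansion hf g]
      rw [indR]
      split_ifs with hg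
      · rw [one_mul]
      · rw [zero_mul, h0 g hg]
    rw [he]
    refine Submodule.sum_mem _ fun χ hχ => Submodule.smul_mem _ _ ?_
    have h := congrArg Subtype.val (b.sum_repr ⟨cutReg p χ, cutReg_mem hχ⟩)
    rw [Submodule.coe_sum] at h
    rw [show cutReg p χ = ∑ i, ((b.repr ⟨cutReg p χ, cutReg_mem hχ⟩ i • b i : latt p (irr G)) :
      G → ℂ) from h.symm]
    refine Submodule.sum_mem _ fun i _ => ?_
    rw [Submodule.coe_smul, ← Int.cast_smul_eq_zsmul ℂ]
    exact Submodule.smul_mem _ _ (Submodule.subset_span ⟨i, rfl⟩)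

/-- An element of the lattice pairs to `0` with the characters outside. -/
theorem pairing_eq_zero {S : Finset (G → ℂ)} (hS : Good v S) {x : G → ℂ} (hx : x ∈ latt p S)
    {ψ : G → ℂ} (hψ : ψ ∈ irr G) (hn : ψ ∉ S) : pairing x ψ = 0 := by
  induction hx using Submodule.span_induction with
  | mem y hy =>
    obtain ⟨χ, hχ, rfl⟩ := hy
    rw [pairing_cutReg, contr_comm, BrauerFeit.Good.contr_eq_zero hS hψ hn hχ]
  | zero => simp [pairing]
  | add a b _ _ ha hb =>
    have : pairing (a + b) ψ = pairing a ψ + pairing b ψ := by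
      simp [pairing, add_mul, sum_add_distrib, mul_add]
    rw [this, ha, hb, add_zero]
  | smul c a _ ha =>
    have h := pairing_sum_smul (fun _ : Unit => c) (fun _ => a) ψ
    simp only [univ_unique, sum_singleton] at h
    rw [h, ha, mul_zero]

/-- **The lattice is the direct sum over the blocks.** -/
theorem latt_iSupIndep (v : Place p) :
    iSupIndep (fun B : {B // B ∈ (irr G).image (blk v)} => latt p B.1) ∧
      ⨆ B : {B // B ∈ (irr G).image (blk v)}, latt p B.1 = latt p (irr G) := by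
  refine ⟨?_, le_antisymm (iSup_le fun B => Submodule.span_mono (Set.image_mono ?_)) ?_⟩
  · intro B
    rw [Submodule.disjoint_def]
    intro x hx hx'
    obtain ⟨χ₀, -, hB⟩ := mem_image.1 B.2
    have hsub : B.1 ⊆ irr G := hB ▸ blk_subset v χ₀
    have hcls := (isCls_of_mem hsub hx).1
    funext g
    rw [expansion hcls g, Pi.zero_apply]
    refine sum_eq_zero fun ψ hψ => ?_
    by_cases hm : ψ ∈ B.1
    · have hgood : Good v (irr G \ B.1) := (hB ▸ good_blk v χ₀ : Good v B.1).compl
      have hle : (⨆ (C) (_ : C ≠ B), latt p (C.1 : Finset (G → ℂ))) ≤ latt p (irr G \ B.1) := by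
        refine iSup₂_le fun C hC => Submodule.span_mono (Set.image_mono ?_)
        intro φ hφ
        obtain ⟨χ₁, -, hC1⟩ := mem_image.1 C.2
        refine mem_coe.2 (mem_sdiff.2 ⟨(hC1 ▸ blk_subset v χ₁ : C.1 ⊆ irr G) hφ, fun h => ?_⟩)
        rw [mem_coe, ← hC1] at hφ
        rw [← hB] at h
        exact hC (Subtype.ext (by
          rw [← hB, ← hC1, ← BrauerFeit.blk_eq h, BrauerFeit.blk_eq hφ]))
      rw [pairing_eq_zero hgood (hle hx') hψ fun h => (mem_sdiff.1 h).2 hm, zero_mul]
    · rw [pairing_eq_zero (hB ▸ good_blk v χ₀ : Good v B.1) hx hψ hm, zero_mul]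
  · obtain ⟨χ₀, -, hB⟩ := mem_image.1 B.2
    rw [← hB]
    exact coe_subset.2 (blk_subset v χ₀)
  · refine Submodule.span_le.2 ?_
    rintro _ ⟨χ, hχ, rfl⟩
    exact Submodule.mem_iSup_of_mem ⟨blk v χ, mem_image_of_mem _ hχ⟩
      (cutReg_mem (mem_blk_self hχ))

/-- `1 ≤ l(B)`. -/
theorem one_le_lB {χ₀ : G → ℂ} (hχ₀ : χ₀ ∈ irr G) : 1 ≤ lB p (blk v χ₀) := by
  refine Module.finrank_pos_iff_exists_ne_zero.2
    ⟨⟨cutReg p χ₀, cutReg_mem (mem_blk_self hχ₀)⟩, fun h => irr_one_ne_zero hχ₀ ?_⟩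
  have h' := congrFun (congrArg Subtype.val h) 1
  simpa [cutReg, indR, Reg.one] using h'

/-- **`l(B) ≤ k(B)`, with equality only for defect zero.** -/
theorem lB_le {χ₀ : G → ℂ} (hχ₀ : χ₀ ∈ irr G) :
    lB p (blk v χ₀) ≤ (blk v χ₀).card ∧
      (lB p (blk v χ₀) = (blk v χ₀).card ↔ ordDefect p (blk v χ₀) = 0) := by
  have hS := good_blk v χ₀
  have hmem := mem_blk_self (v := v) hχ₀
  obtain ⟨M, hM, hMM, hsym⟩ := BrauerFeit.exists_matrix hS
  set d := ordDefect p (blk v χ₀)
  have hq : (0 : ℤ) < (p : ℤ) ^ d := pow_pos (Int.natCast_pos.2 hp.out.pos) _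
  have hsum : ∑ χ ∈ blk v χ₀, M χ χ = (p : ℤ) ^ d * lB p (blk v χ₀) := by
    apply Int.cast_injective (α := ℂ)
    push_cast
    rw [lB_eq hS, mul_sum]
    exact sum_congr rfl fun χ hχ => (hM χ hχ χ hχ).symm
  have hdiag : ∀ χ ∈ blk v χ₀, ∀ ψ ∈ blk v χ₀, ψ ≠ χ →
      M χ χ * M χ χ + M χ ψ * M χ ψ ≤ (p : ℤ) ^ d * M χ χ := fun χ hχ ψ hψ hne => by
    rw [← hMM χ hχ χ hχ, ← sum_pair (f := fun φ => M χ φ * M χ φ) hne.symm,
      sum_congr rfl fun φ hφ => show M χ φ * M φ χ = M χ φ * M χ φ by rw [hsym φ hφ χ hχ]]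
    exact sum_le_sum_of_subset_of_nonneg
      (insert_subset hχ (singleton_subset_iff.2 hψ)) fun φ _ _ => mul_self_nonneg _
  have hle : ∀ χ ∈ blk v χ₀, M χ χ ≤ (p : ℤ) ^ d := fun χ hχ => by
    have h1 := single_le_sum (f := fun φ => M χ φ * M χ φ) (fun φ _ => mul_self_nonneg _) hχ
    rw [sum_congr rfl fun φ hφ => show M χ φ * M χ φ = M χ φ * M φ χ by rw [hsym φ hφ χ hχ],
      hMM χ hχ χ hχ] at h1
    nlinarith
  have hle' : (p : ℤ) ^ d * lB p (blk v χ₀) ≤ (p : ℤ) ^ d * (blk v χ₀).card := by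
    rw [← hsum, mul_comm _ ((blk v χ₀).card : ℤ), ← nsmul_eq_mul, ← sum_const]
    exact sum_le_sum hle
  refine ⟨by exact_mod_cast le_of_mul_le_mul_left hle' hq, fun heq => ?_, fun hd => ?_⟩
  · have hall : ∀ χ ∈ blk v χ₀, M χ χ = (p : ℤ) ^ d := by
      refine (sum_eq_sum_iff_of_le hle).1 ?_
      rw [hsum, heq, sum_const, nsmul_eq_mul, mul_comm]
    have hoff : ∀ χ ∈ blk v χ₀, ∀ ψ ∈ blk v χ₀, ψ ≠ χ → contr p χ ψ = 0 := fun χ hχ ψ hψ hne => by
      have h := hdiag χ hχ ψ hψ hne
      rw [hall χ hχ] at h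
      have h0 : M χ ψ = 0 := mul_self_eq_zero.1 (le_antisymm (by linarith) (mul_self_nonneg _))
      have h' := hM χ hχ ψ hψ
      rw [h0, Int.cast_zero, mul_eq_zero, or_iff_right
        (pow_ne_zero _ (Nat.cast_ne_zero.2 hp.out.ne_zero))] at h'
      exact h'
    have h1 : contr p χ₀ χ₀ = 1 := by
      have h' := hM χ₀ hmem χ₀ hmem
      rw [hall χ₀ hmem, Int.cast_pow, Int.cast_natCast] at h'
      exact (mul_eq_left₀ (pow_ne_zero _ (Nat.cast_ne_zero.2 hp.out.ne_zero))).1 h'
    have hvan : ∀ g, ¬ Reg p g → χ₀ g = 0 := fun g hg => by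
      have h' := cut_eq_sum hS hmem g
      rw [indR, if_neg hg, zero_mul, sum_eq_single χ₀
        (fun ψ hψ hne => by rw [hoff χ₀ hmem ψ hψ hne, zero_mul]) (absurd hmem), h1, one_mul] at h'
      exact h'.symm
    have hdvd := BrauerFeit.pow_dvd_deg_of_vanish hχ₀ hvan
    show ordDefect p (blk v χ₀) = 0
    rw [ordDefect, (BrauerFeit.defect_zero hχ₀ hdvd).2, sup_singleton, BrauerFeit.defectExp]
    have := (hp.out.pow_dvd_iff_le_factorization (BrauerFeit.deg_spec hχ₀).2).1 hdvd
    omega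
  · have h1 := BrauerFeit.card_blk_le_sq (v := v) (p := p) hχ₀
    rw [show ordDefect p (blk v χ₀) = 0 from hd, mul_zero, pow_zero] at h1
    have h2 := one_le_lB (v := v) (p := p) hχ₀
    have h3 : lB p (blk v χ₀) ≤ (blk v χ₀).card := by
      exact_mod_cast le_of_mul_le_mul_left hle' hq
    omega

end FA.BlockCartan

end
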