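import Fermat.Agent.BlockCartan.Lattice
import Fermat.Agent.SecondMainTheorem.Main

/-!
# Brauer's formula for the number of characters in a block
-/

set_option autoImplicit false
set_option linter.style.haveILetI false

noncomputable section

open Finset FA.CharacterTheory FA.FrobeniusGroups FA.Thompson FA.PrincipalBlock
open FA.BrauerFeit (contr contr_eq cut_eq_sum mem_blk_self)
open FA.SecondMainTheorem (corr good_corr eq_regular_sum decomp_unique)
open scoped Classical

namespace FA.BlockCartan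

variable {G : Type*} [Group G] [Fintype G] {p : ℕ} [hp : Fact p.Prime] {v : Place p}

omit hp in
/-- Representatives of the classes of elements of `p`-power order. -/
theorem exists_reps : ∃ U : Finset G, (∀ u ∈ U, PEl p u) ∧
    ∀ a, PEl p a → ∃! u, u ∈ U ∧ IsConj u a := by
  refine ⟨univ.filter fun g => PEl p g ∧ g = Quotient.out (ConjClasses.mk g),
    fun u hu => (mem_filter.1 hu).2.1, fun a ha => ?_⟩
  have h : IsConj (Quotient.out (ConjClasses.mk a)) a :=
    ConjClasses.mk_eq_mk_iff_isConj.1 (Quotient.out_eq _)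
  have hmk : ConjClasses.mk (Quotient.out (ConjClasses.mk a)) = ConjClasses.mk a :=
    ConjClasses.mk_eq_mk_iff_isConj.2 h
  refine ⟨Quotient.out (ConjClasses.mk a), ⟨mem_filter.2 ⟨mem_univ _, ?_, by rw [hmk]⟩, h⟩, ?_⟩
  · obtain ⟨x, hx⟩ := isConj_iff.1 h.symm
    rw [← hx]
    exact pEl_conj.2 ha
  · rintro u ⟨hu, hua⟩
    rw [(mem_filter.1 hu).2.2, ConjClasses.mk_eq_mk_iff_isConj.2 hua]

/-- The elements whose `p`-part is conjugate to `u`. -/
def sect (p : ℕ) (u : G) : Finset G :=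
  ((univ : Finset G) ×ˢ univ.filter
    (fun s : Subgroup.centralizer ({u} : Set G) => Reg p s)).image
      fun x => x.1 * (u * x.2) * x.1⁻¹

omit [Fintype G] in
theorem mem_centralizer_self_iff {u g : G} :
    g ∈ Subgroup.centralizer ({u} : Set G) ↔ g * u = u * g :=
  Subgroup.mem_centralizer_singleton_iff

/-- Conjugate products with the same `p`-part. -/
theorem conj_product {u : G} (hu : PEl p u) {g : G}
    {s s' : Subgroup.centralizer ({u} : Set G)} (hs : Reg p s) (hs' : Reg p s')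
    (h : g * (u * s) * g⁻¹ = u * s') :
    g ∈ Subgroup.centralizer ({u} : Set G) ∧ g * (s : G) * g⁻¹ = s' := by
  have hc : ∀ t : Subgroup.centralizer ({u} : Set G), Commute u (t : G) :=
    fun t => (mem_centralizer_self_iff.1 t.2).symm
  have hcm : Commute (g * u * g⁻¹) (g * s * g⁻¹) := by
    show _ = _
    rw [show g * u * g⁻¹ * (g * s * g⁻¹) = g * (u * s) * g⁻¹ by group, (hc s).eq]
    group
  obtain ⟨h1, h2⟩ := decomp_unique (p := p) (pEl_conj.2 hu) (reg_conj_iff.2 (reg_coe.2 hs)) hcm hu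
    (reg_coe.2 hs') (hc s') (by rw [← h]; group)
  exact ⟨mem_centralizer_self_iff.2 (mul_inv_eq_iff_eq_mul.1 h1), h2⟩

/-- **Summation over a section.** -/
theorem sum_sect {u : G} (hu : PEl p u) {F : G → ℂ} (hF : IsCls F) :
    (Nat.card (Subgroup.centralizer ({u} : Set G)) : ℂ) * ∑ x ∈ sect p u, F x =
      (Nat.card G : ℂ) *
        ∑ s ∈ univ.filter (fun s : Subgroup.centralizer ({u} : Set G) => Reg p s), F (u * s) := by
  set C := Subgroup.centralizer ({u} : Set G)
  set Φ : G × C → G := fun x => x.1 * (u * x.2) * x.1⁻¹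
  set A := (univ : Finset G) ×ˢ univ.filter (fun s : C => Reg p s)
  have h1 : ∑ x ∈ A, F (Φ x) =
      (Nat.card G : ℂ) * ∑ s ∈ univ.filter (fun s : C => Reg p s), F (u * s) := by
    rw [sum_product]
    simp only [Φ]
    rw [sum_congr rfl fun g _ => sum_congr rfl fun s _ => hF g _, sum_const,
      card_univ, nsmul_eq_mul, Nat.card_eq_fintype_card]
  rw [← h1, ← sum_fiberwise_of_maps_to (g := Φ) (t := sect p u)
    (fun x hx => mem_image_of_mem _ hx) (fun x => F (Φ x)), mul_sum]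
  refine sum_congr rfl fun y hy => ?_
  rw [sum_congr rfl fun x hx => show F (Φ x) = F y by rw [(mem_filter.1 hx).2], sum_const,
    nsmul_eq_mul]
  obtain ⟨⟨g₀, s₀⟩, hm, rfl⟩ := mem_image.1 hy
  congr 2
  rw [Nat.card_eq_fintype_card, ← card_univ]
  refine card_bij (fun c _ => (g₀ * (c : G), c⁻¹ * s₀ * c)) (fun c _ => ?_)
    (fun c _ c' _ h => Subtype.ext (mul_left_cancel (congrArg Prod.fst h))) fun x hx => ?_
  · refine mem_filter.2 ⟨mem_product.2 ⟨mem_univ _, mem_filter.2 ⟨mem_univ _, ?_⟩⟩, ?_⟩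
    · have h := (mem_filter.1 (mem_product.1 hm).2).2
      simpa using (reg_conj_iff (x := c⁻¹)).2 h
    · have hcu := mem_centralizer_self_iff.1 c.2
      show g₀ * (c : G) * (u * ((c⁻¹ * s₀ * c : C) : G)) * (g₀ * (c : G))⁻¹ = _
      push_cast
      rw [show g₀ * (c : G) * (u * ((c : G)⁻¹ * s₀ * c)) * (g₀ * (c : G))⁻¹ =
        g₀ * ((c : G) * u) * (c : G)⁻¹ * s₀ * g₀⁻¹ by group, hcu]
      group
  · obtain ⟨hxA, hxe⟩ := mem_filter.1 hx
    obtain ⟨hg, hs⟩ := conj_product hu (g := g₀⁻¹ * x.1)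
      (mem_filter.1 (mem_product.1 hxA).2).2 (mem_filter.1 (mem_product.1 hm).2).2 (by
        have hxe' : x.1 * (u * x.2) * x.1⁻¹ = g₀ * (u * s₀) * g₀⁻¹ := hxe
        rw [show g₀⁻¹ * x.1 * (u * x.2) * (g₀⁻¹ * x.1)⁻¹ =
          g₀⁻¹ * (x.1 * (u * x.2) * x.1⁻¹) * g₀ by group, hxe']
        group)
    refine ⟨⟨_, hg⟩, mem_univ _, Prod.ext (mul_inv_cancel_left g₀ x.1) (Subtype.ext ?_)⟩
    push_cast
    rw [← hs]
    group

/-- The sections partition the group. -/
theorem sum_eq_sum_sect {U : Finset G} (hU : ∀ u ∈ U, PEl p u)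
    (hrep : ∀ a, PEl p a → ∃! u, u ∈ U ∧ IsConj u a) (F : G → ℂ) :
    ∑ x, F x = ∑ u ∈ U, ∑ x ∈ sect p u, F x := by
  rw [← sum_biUnion]
  · refine sum_congr ?_ fun _ _ => rfl
    refine (eq_univ_of_forall fun x => ?_).symm
    obtain ⟨a, w, ha, hw, hxaw, hak, hwr⟩ := exists_decomp (p := p) x
    obtain ⟨u, ⟨hu, hua⟩, -⟩ := hrep a hak
    obtain ⟨g, hg⟩ := isConj_iff.1 hua
    have hcm : a * w = w * a := by
      obtain ⟨i, rfl⟩ := Subgroup.mem_zpowers_iff.1 ha
      obtain ⟨j, rfl⟩ := Subgroup.mem_zpowers_iff.1 hw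
      exact ((Commute.refl x).zpow_zpow i j).eq
    refine mem_biUnion.2 ⟨u, hu, mem_image.2 ⟨(g, ⟨g⁻¹ * w * g, ?_⟩), ?_, ?_⟩⟩
    · rw [mem_centralizer_self_iff, ← mul_left_inj g⁻¹, ← mul_right_inj g]
      calc g * (g⁻¹ * w * g * u * g⁻¹) = w * (g * u * g⁻¹) := by group
        _ = (g * u * g⁻¹) * w := by rw [hg, hcm]
        _ = _ := by group
    · refine mem_product.2 ⟨mem_univ _, mem_filter.2 ⟨mem_univ _, reg_coe.1 ?_⟩⟩
      simpa using (reg_conj_iff (x := g⁻¹)).2 hwr
    · show g * (u * (g⁻¹ * w * g)) * g⁻¹ = x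
      rw [hxaw, ← hg]
      group
  · intro u hu u' hu' hne
    refine disjoint_left.2 fun x hx hx' => hne ?_
    obtain ⟨⟨g, s⟩, hs, rfl⟩ := mem_image.1 hx
    obtain ⟨⟨g', s'⟩, hs', he⟩ := mem_image.1 hx'
    have hc : ∀ (w : G) (t : Subgroup.centralizer ({w} : Set G)), Commute w (t : G) :=
      fun w t => (mem_centralizer_self_iff.1 t.2).symm
    have hconj : ∀ (h w t : G), Commute w t → Commute (h * w * h⁻¹) (h * t * h⁻¹) :=
      fun h w t hwt => by
        show _ = _
        rw [show h * w * h⁻¹ * (h * t * h⁻¹) = h * (w * t) * h⁻¹ by group, hwt.eq]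
        group
    obtain ⟨h1, -⟩ := decomp_unique (p := p) (pEl_conj.2 (hU u' hu'))
      (reg_conj_iff.2 (reg_coe.2 (mem_filter.1 (mem_product.1 hs').2).2))
      (hconj g' u' s' (hc u' s')) (pEl_conj.2 (hU u hu))
      (reg_conj_iff.2 (reg_coe.2 (mem_filter.1 (mem_product.1 hs).2).2))
      (hconj g u s (hc u s)) (by
        have he' : g' * (u' * s') * g'⁻¹ = g * (u * s) * g⁻¹ := he
        rw [show g' * u' * g'⁻¹ * (g' * s' * g'⁻¹) = g' * (u' * s') * g'⁻¹ by group, he']
        group)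
    exact (hrep _ (hU u hu)).unique ⟨hu, IsConj.refl u⟩
      ⟨hu', (isConj_iff.2 ⟨g', h1⟩).trans (isConj_iff.2 ⟨g, rfl⟩).symm⟩

/-- The column orthogonality inside a section. -/
theorem sum_irr_section {u : G} (hu : PEl p u) {s c : Subgroup.centralizer ({u} : Set G)}
    (hs : Reg p s) (hc : Reg p c) :
    ∑ χ ∈ irr G, χ (u * c) * χ (u * s)⁻¹ =
      ∑ φ ∈ irr (Subgroup.centralizer ({u} : Set G)), φ c * φ s⁻¹ := by
  have hcu : ∀ t : Subgroup.centralizer ({u} : Set G), (t : G) * u = u * t :=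
    fun t => mem_centralizer_self_iff.1 t.2
  rw [column_orthogonality, column_orthogonality]
  have hiff : IsConj (u * s : G) (u * c) ↔ IsConj s c := by
    refine ⟨fun h => ?_, fun h => ?_⟩
    · obtain ⟨g, hg⟩ := isConj_iff.1 h
      obtain ⟨hgC, hgs⟩ := conj_product hu hs hc hg
      exact isConj_iff.2 ⟨⟨g, hgC⟩, Subtype.ext hgs⟩
    · obtain ⟨g, rfl⟩ := isConj_iff.1 h
      refine isConj_iff.2 ⟨g, ?_⟩
      push_cast
      rw [show (g : G) * (u * s) * (g : G)⁻¹ = (g * u) * s * (g : G)⁻¹ by group, hcu g]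
      group
  have hcard : Nat.card (Subgroup.centralizer ({(u * s : G)} : Set G)) =
      Nat.card (Subgroup.centralizer ({s} : Set (Subgroup.centralizer ({u} : Set G)))) := by
    have hto : ∀ t : Subgroup.centralizer ({s} : Set (Subgroup.centralizer ({u} : Set G))),
        (t.1 : G) ∈ Subgroup.centralizer ({(u * s : G)} : Set G) := fun t => by
      refine Subgroup.mem_centralizer_singleton_iff.2 ?_
      have he : (t.1 : G) * s = s * t.1 :=
        congrArg Subtype.val (Subgroup.mem_centralizer_singleton_iff.1 t.2 : t.1 * s = s * t.1)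
      rw [← mul_assoc, hcu t.1, mul_assoc, he, mul_assoc]
    have hfrom : ∀ g : Subgroup.centralizer ({(u * s : G)} : Set G),
        ∃ h : (g : G) ∈ Subgroup.centralizer ({u} : Set G),
          (⟨g, h⟩ : Subgroup.centralizer ({u} : Set G)) ∈
            Subgroup.centralizer ({s} : Set (Subgroup.centralizer ({u} : Set G))) := fun g => by
      obtain ⟨h1, h2⟩ := conj_product hu hs hs (g := g.1) (by
        rw [mul_inv_eq_iff_eq_mul]
        exact Subgroup.mem_centralizer_singleton_iff.1 g.2)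
      refine ⟨h1, Subgroup.mem_centralizer_singleton_iff.2 (Subtype.ext ?_)⟩
      rw [mul_inv_eq_iff_eq_mul] at h2
      simpa using h2
    exact (Nat.card_congr
      { toFun := fun t : Subgroup.centralizer ({s} : Set (Subgroup.centralizer ({u} : Set G))) =>
          (⟨t.1, hto t⟩ : Subgroup.centralizer ({(u * s : G)} : Set G))
        invFun := fun g => ⟨⟨g.1, (hfrom g).1⟩, (hfrom g).2⟩
        left_inv := fun t => rfl
        right_inv := fun g => rfl }).symm
  by_cases h : IsConj s c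
  · rw [if_pos h, if_pos (hiff.2 h), hcard]
  · rw [if_neg h, if_neg (mt hiff.1 h)]

/-- **The contribution of a section to a block.** -/
theorem section_count {χ₀ : G → ℂ} (hχ₀ : χ₀ ∈ irr G) {u : G} (hu : PEl p u) :
    ∑ s ∈ univ.filter (fun s : Subgroup.centralizer ({u} : Set G) => Reg p s),
        ∑ χ ∈ blk v χ₀, χ (u * s) * χ (u * s)⁻¹ =
      (Nat.card (Subgroup.centralizer ({u} : Set G)) : ℂ) *
        lB p (corr v (Subgroup.centralizer {u}) χ₀) := by
  set C := Subgroup.centralizer ({u} : Set G)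
  have hC : ∀ g, g ∈ C ↔ g * u = u * g := fun g => mem_centralizer_self_iff
  have hT := good_corr (v := v) C χ₀
  have key : ∀ s ∈ univ.filter (fun s : C => Reg p s),
      ∑ χ ∈ blk v χ₀, χ (u * s) * χ (u * s)⁻¹ = ∑ φ ∈ corr v C χ₀, φ s * φ s⁻¹ := by
    intro s hs
    have hsr := (mem_filter.1 hs).2
    calc ∑ χ ∈ blk v χ₀, χ (u * s) * χ (u * s)⁻¹
        = ∑ χ ∈ irr G, (if χ ∈ blk v χ₀ then χ (u * s) else 0) * χ (u * s)⁻¹ := by
          simp only [ite_mul, zero_mul]
          rw [← sum_filter, filter_mem_eq_inter, inter_eq_right.2 (blk_subset v χ₀)]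
      _ = ∑ c ∈ univ.filter (fun c : C => Reg p c),
            ((Nat.card C : ℂ)⁻¹ * ∑ φ ∈ corr v C χ₀, φ s * φ c⁻¹) *
              ∑ ψ ∈ irr C, ψ c * ψ s⁻¹ := by
          rw [sum_congr rfl fun χ hχ => by rw [eq_regular_sum hu C hC hχ₀ hχ hsr, sum_mul],
            sum_comm]
          refine sum_congr rfl fun c hc => ?_
          rw [← sum_irr_section hu hsr (mem_filter.1 hc).2,
            mul_sum (f := fun χ : G → ℂ => χ (u * c) * χ (u * s)⁻¹)]
          exact sum_congr rfl fun χ _ => by ring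
      _ = ∑ ψ ∈ irr C, (∑ φ ∈ corr v C χ₀, contr p ψ φ * φ s) * ψ s⁻¹ := by
          simp only [mul_sum, sum_mul]
          rw [sum_comm]
          refine sum_congr rfl fun ψ _ => ?_
          rw [sum_comm]
          refine sum_congr rfl fun φ _ => ?_
          simp only [contr_eq, mul_sum, sum_mul]
          exact sum_congr rfl fun c _ => by ring
      _ = _ := by
          rw [← sum_subset hT.sub fun ψ hψ hn => by
            rw [sum_eq_zero fun φ hφ => by
              rw [BrauerFeit.Good.contr_eq_zero hT hψ hn hφ, zero_mul], zero_mul]]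
          refine sum_congr rfl fun ψ hψ => ?_
          rw [← cut_eq_sum hT hψ, indR, if_pos hsr, one_mul]
  rw [sum_congr rfl key, lB_eq hT, mul_sum]
  simp only [contr_eq]
  rw [sum_comm]
  refine sum_congr rfl fun φ _ => ?_
  rw [mul_inv_cancel_left₀ (Nat.cast_ne_zero.2 Nat.card_pos.ne')]

/-- The contribution of a section to all characters. -/
theorem section_count_all {u : G} (hu : PEl p u) :
    ∑ s ∈ univ.filter (fun s : Subgroup.centralizer ({u} : Set G) => Reg p s),
        ∑ χ ∈ irr G, χ (u * s) * χ (u * s)⁻¹ =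
      (Nat.card (Subgroup.centralizer ({u} : Set G)) : ℂ) *
        (regClasses p (Subgroup.centralizer ({u} : Set G))).card := by
  rw [mul_comm, ← sum_centralizer]
  refine sum_congr rfl fun s hs => ?_
  rw [sum_irr_section hu (mem_filter.1 hs).2 (mem_filter.1 hs).2, column_orthogonality,
    if_pos (IsConj.refl s)]

/-- Adding up the sections. -/
theorem sum_sections {U : Finset G} (hU : ∀ u ∈ U, PEl p u)
    (hrep : ∀ a, PEl p a → ∃! u, u ∈ U ∧ IsConj u a) {S : Finset (G → ℂ)} (hS : S ⊆ irr G)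
    (n : G → ℕ) (hn : ∀ u ∈ U,
      ∑ s ∈ univ.filter (fun s : Subgroup.centralizer ({u} : Set G) => Reg p s),
          ∑ χ ∈ S, χ (u * s) * χ (u * s)⁻¹ =
        (Nat.card (Subgroup.centralizer ({u} : Set G)) : ℂ) * n u) :
    S.card = ∑ u ∈ U, n u := by
  have hF : IsCls fun x : G => ∑ χ ∈ S, χ x * χ x⁻¹ := fun g x => sum_congr rfl fun χ hχ => by
    rw [irr_conj (hS hχ), show (g * x * g⁻¹)⁻¹ = g * x⁻¹ * g⁻¹ by group, irr_conj (hS hχ)]
  have htot : ∑ x : G, ∑ χ ∈ S, χ x * χ x⁻¹ = (Nat.card G : ℂ) * S.card := by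
    rw [sum_comm, mul_comm, ← nsmul_eq_mul, ← sum_const]
    refine sum_congr rfl fun χ hχ => ?_
    have h := pairing_irr (hS hχ) (hS hχ)
    rw [if_pos rfl, pairing,
      inv_mul_eq_iff_eq_mul₀ (Nat.cast_ne_zero.2 Nat.card_pos.ne'), mul_one] at h
    exact h
  rw [sum_eq_sum_sect hU hrep] at htot
  have h2 : ∑ u ∈ U, ∑ x ∈ sect p u, ∑ χ ∈ S, χ x * χ x⁻¹ =
      (Nat.card G : ℂ) * ((∑ u ∈ U, n u : ℕ) : ℂ) := by
    rw [Nat.cast_sum, mul_sum]
    refine sum_congr rfl fun u hu => mul_left_cancel₀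
      (Nat.cast_ne_zero.2 (Nat.card_pos (α := Subgroup.centralizer ({u} : Set G))).ne' :
        (Nat.card (Subgroup.centralizer ({u} : Set G)) : ℂ) ≠ 0) ?_
    rw [sum_sect (hU u hu) hF, hn u hu]
    ring
  exact_mod_cast mul_left_cancel₀ (Nat.cast_ne_zero.2 (Nat.card_pos (α := G)).ne' :
    (Nat.card G : ℂ) ≠ 0) (htot.symm.trans h2)

/-- **Brauer's formula for `k(B)`.** -/
theorem card_blk_eq {U : Finset G} (hU : ∀ u ∈ U, PEl p u)
    (hrep : ∀ a, PEl p a → ∃! u, u ∈ U ∧ IsConj u a) {χ₀ : G → ℂ} (hχ₀ : χ₀ ∈ irr G) :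
    (blk v χ₀).card = ∑ u ∈ U, lB p (corr v (Subgroup.centralizer ({u} : Set G)) χ₀) :=
  sum_sections hU hrep (blk_subset v χ₀) _ fun u hu => section_count hχ₀ (hU u hu)

/-- The number of classes by sections. -/
theorem card_classes_eq {U : Finset G} (hU : ∀ u ∈ U, PEl p u)
    (hrep : ∀ a, PEl p a → ∃! u, u ∈ U ∧ IsConj u a) :
    Nat.card (ConjClasses G) =
      ∑ u ∈ U, (regClasses p (Subgroup.centralizer ({u} : Set G))).card := by
  rw [← card_irr]
  exact sum_sections hU hrep subset_rfl _ fun u hu => section_count_all (hU u hu)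

end FA.BlockCartan

end
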